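/-
IHARA / [TAME-ALG] (helper5), part 2: roots of unity congruent to `1`.

* `ihta_geom_notMem` : `𝔫` a proper ideal containing `p` and `y - 1`, `p ∤ u` ⟹
  `∑_{j < u} y ^ j ∉ 𝔫`;
* `ihta_eq_one_of_pow_local` : in a local ring of residue characteristic `p`, `y ≡ 1`, `y ^ u = 1`,
  `p ∤ u` ⟹ `y = 1`;
* `ihta_eq_one_of_pow_domain` : the same in a domain with a proper ideal `𝔫 ∋ p, y - 1`;
* `ihta_pow_sub_one_mem` : `y - 1 ∈ I ⟹ y ^ n - 1 ∈ I`.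
-/
import Mathlib

set_option autoImplicit false

namespace Fermat.Agent.Ihara

open Finset

section

variable {B : Type*} [CommRing B]

theorem ihta_pow_sub_one_mem (I : Ideal B) {y : B} (hy : y - 1 ∈ I) (n : ℕ) : y ^ n - 1 ∈ I := by
  rw [← mul_geom_sum]
  exact I.mul_mem_right _ hy

/-- a natural number prime to `p` is not in a proper ideal containing `p` -/
theorem ihta_natCast_notMem (𝔫 : Ideal B) (h𝔫 : 𝔫 ≠ ⊤) {p : ℕ} (hp : p.Prime)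
    (hpB : (p : B) ∈ 𝔫) {u : ℕ} (hu : ¬ p ∣ u) : (u : B) ∉ 𝔫 := by
  intro h
  apply h𝔫
  rw [Ideal.eq_top_iff_one]
  have hcop : Nat.Coprime p u := (Nat.Prime.coprime_iff_not_dvd hp).2 hu
  have h1 : IsCoprime (p : ℤ) (u : ℤ) := Nat.isCoprime_iff_coprime.2 hcop
  obtain ⟨a, b, hab⟩ := h1
  have h2 : ((a : B) * (p : B) + (b : B) * (u : B)) = 1 := by
    have := congrArg (fun z : ℤ => (z : B)) hab
    simpa using this
  rw [← h2]
  exact 𝔫.add_mem (𝔫.mul_mem_left _ hpB) (𝔫.mul_mem_left _ h)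

theorem ihta_geom_notMem (𝔫 : Ideal B) (h𝔫 : 𝔫 ≠ ⊤) {p : ℕ} (hp : p.Prime)
    (hpB : (p : B) ∈ 𝔫) {y : B} (hy : y - 1 ∈ 𝔫) {u : ℕ} (hu : ¬ p ∣ u) :
    ∑ j ∈ range u, y ^ j ∉ 𝔫 := by
  intro h
  apply ihta_natCast_notMem 𝔫 h𝔫 hp hpB hu
  have h1 : (u : B) = ∑ j ∈ range u, y ^ j - ∑ j ∈ range u, (y ^ j - 1) := by
    rw [Finset.sum_sub_distrib, Finset.sum_const, card_range]
    simp
  rw [h1]
  exact 𝔫.sub_mem h (𝔫.sum_mem fun j _ => ihta_pow_sub_one_mem 𝔫 hy j)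

theorem ihta_eq_one_of_pow_domain [IsDomain B] (𝔫 : Ideal B) (h𝔫 : 𝔫 ≠ ⊤) {p : ℕ}
    (hp : p.Prime) (hpB : (p : B) ∈ 𝔫) {y : B} (hy : y - 1 ∈ 𝔫) {u : ℕ} (hu : ¬ p ∣ u)
    (hyu : y ^ u = 1) : y = 1 := by
  have h1 : (y - 1) * ∑ j ∈ range u, y ^ j = 0 := by rw [mul_geom_sum, hyu, sub_self]
  have h2 : ∑ j ∈ range u, y ^ j ≠ 0 := fun h =>
    ihta_geom_notMem 𝔫 h𝔫 hp hpB hy hu (h ▸ 𝔫.zero_mem)
  rcases mul_eq_zero.1 h1 with h | h
  · exact sub_eq_zero.1 h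
  · exact absurd h h2

theorem ihta_eq_one_of_pow_local [IsLocalRing B] {p : ℕ} (hp : p.Prime)
    (hpB : (p : B) ∈ IsLocalRing.maximalIdeal B) {y : B} (hy : y - 1 ∈ IsLocalRing.maximalIdeal B)
    {u : ℕ} (hu : ¬ p ∣ u) (hyu : y ^ u = 1) : y = 1 := by
  have h1 : (y - 1) * ∑ j ∈ range u, y ^ j = 0 := by rw [mul_geom_sum, hyu, sub_self]
  have h2 : IsUnit (∑ j ∈ range u, y ^ j) := by
    rw [← IsLocalRing.notMem_maximalIdeal]
    exact ihta_geom_notMem _ (Ideal.IsMaximal.ne_top inferInstance) hp hpB hy hu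
  exact sub_eq_zero.1 (h2.mul_left_eq_zero.1 h1)

/-- a unit plus an element of the maximal ideal is a unit -/
theorem ihta_isUnit_add [IsLocalRing B] {x y : B} (hx : IsUnit x)
    (hy : y ∈ IsLocalRing.maximalIdeal B) : IsUnit (x + y) := by
  rw [← IsLocalRing.notMem_maximalIdeal] at hx ⊢
  intro h
  apply hx
  have : x = (x + y) - y := by ring
  rw [this]
  exact Ideal.sub_mem _ h hy

end

end Fermat.Agent.Ihara
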