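/-
IHARA / [TAME-ALG] (helper5), part 5: the set `μ` of nontrivial `p ^ a`-th roots of unity.

`ihta_exists_mu` : if the local domain `𝒪` of residue characteristic `p` odd contains a primitive
`p ^ a`-th root of unity, there is a finite set `μ ⊆ 𝒪ˣ` with
`X ^ (p ^ a) - 1 = (X - 1) ∏_{ζ ∈ μ} (X - ζ)` (the hypothesis `hμ` of `ihta_C_main`),
`ζ ≡ 1 mod 𝔪` and `ζ ^ 2 ≠ 1` for `ζ ∈ μ` (the hypotheses `hμ1`, `hμ2` of `iha_main`).
-/
import Mathlib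
import Fermat.Agent.Lib.Ihara.Ta.Roots

set_option autoImplicit false
set_option linter.style.haveILetI false
set_option linter.unusedSectionVars false

namespace Fermat.Agent.Ihara

open Polynomial IsLocalRing

section

variable {𝒪 : Type*} [CommRing 𝒪] [IsDomain 𝒪]

/-- the nontrivial `n`-th roots of unity as a finite set of units, with the factorisation of
`X ^ n - 1` -/
theorem ihta_exists_mu_aux (n : ℕ) (hn : 0 < n) (ζ₀ : 𝒪) (hζ₀ : IsPrimitiveRoot ζ₀ n) :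
    ∃ μ : Finset 𝒪ˣ, (X ^ n - 1 : 𝒪[X]) = (X - 1) * ∏ ζ ∈ μ, (X - C (ζ : 𝒪)) ∧
      ∀ ζ ∈ μ, ζ ^ n = 1 ∧ ζ ≠ 1 := by
  classical
  set S : Finset 𝒪 := (nthRootsFinset n (1 : 𝒪)).erase 1 with hS
  have hmemS : ∀ x ∈ S, x ^ n = 1 := fun x hx =>
    (mem_nthRootsFinset hn 1).1 (Finset.mem_of_mem_erase hx)
  set g : {x // x ∈ S} → 𝒪ˣ := fun x => Units.ofPowEqOne x.1 n (hmemS x.1 x.2) hn.ne' with hg
  have hgval : ∀ x, ((g x : 𝒪ˣ) : 𝒪) = x.1 := fun x => rfl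
  have hginj : Function.Injective g := by
    intro x y hxy
    apply Subtype.ext
    rw [← hgval x, ← hgval y, hxy]
  refine ⟨S.attach.image g, ?_, ?_⟩
  · rw [Finset.prod_image (fun x _ y _ h => hginj h)]
    have h1 : ∏ x ∈ S.attach, (X - C ((g x : 𝒪ˣ) : 𝒪)) = ∏ x ∈ S, (X - C x) := by
      rw [← Finset.prod_attach S (fun x => (X - C x : 𝒪[X]))]
      exact Finset.prod_congr rfl fun x _ => by rw [hgval]
    rw [h1, X_pow_sub_one_eq_prod hn hζ₀]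
    have h2 : (1 : 𝒪) ∈ nthRootsFinset n (1 : 𝒪) := (mem_nthRootsFinset hn 1).2 (one_pow n)
    rw [← Finset.mul_prod_erase _ _ h2, map_one]
  · intro ζ hζ
    obtain ⟨x, -, rfl⟩ := Finset.mem_image.1 hζ
    constructor
    · apply Units.ext
      rw [Units.val_pow_eq_pow_val, hgval, Units.val_one]
      exact hmemS x.1 x.2
    · intro h
      have h1 : x.1 = 1 := by rw [← hgval, h, Units.val_one]
      exact (Finset.mem_erase.1 x.2).1 h1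

variable [IsLocalRing 𝒪]

/-- a `p`-power root of unity in a local ring of residue characteristic `p` is `≡ 1` -/
theorem ihta_root_sub_one_mem {p : ℕ} (hp : p.Prime) (hp𝒪 : (p : 𝒪) ∈ maximalIdeal 𝒪) (a : ℕ)
    (z : 𝒪) (hz : z ^ (p ^ a) = 1) : z - 1 ∈ maximalIdeal 𝒪 := by
  haveI : Fact p.Prime := ⟨hp⟩
  haveI : CharP (ResidueField 𝒪) p := by
    refine (CharP.charP_iff_prime_eq_zero hp).2 ?_
    have : ((p : 𝒪) : 𝒪) ∈ maximalIdeal 𝒪 := hp𝒪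
    rw [← residue_eq_zero_iff, map_natCast] at this
    exact this
  rw [← residue_eq_zero_iff, map_sub, map_one]
  have h1 : (residue 𝒪 z - 1) ^ (p ^ a) = 0 := by
    rw [sub_pow_char_pow, one_pow, ← map_pow, hz, map_one, sub_self]
  exact pow_eq_zero_iff (pow_pos hp.pos a).ne' |>.1 h1

/-- **the set `μ`** -/
theorem ihta_exists_mu {p : ℕ} (hp : p.Prime) (hp2 : p ≠ 2) (hp𝒪 : (p : 𝒪) ∈ maximalIdeal 𝒪)
    (a : ℕ) (ζ₀ : 𝒪) (hζ₀ : IsPrimitiveRoot ζ₀ (p ^ a)) :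
    ∃ μ : Finset 𝒪ˣ,
      (X ^ (p ^ a) - 1 : 𝒪[X]) = (X - 1) * ∏ ζ ∈ μ, (X - C (ζ : 𝒪)) ∧
      (∀ ζ ∈ μ, (ζ : 𝒪) - 1 ∈ maximalIdeal 𝒪) ∧ (∀ ζ ∈ μ, (ζ : 𝒪) ^ 2 ≠ 1) ∧
      ∀ ζ ∈ μ, ζ ^ (p ^ a) = 1 ∧ ζ ≠ 1 := by
  obtain ⟨μ, h1, h2⟩ := ihta_exists_mu_aux (p ^ a) (pow_pos hp.pos a) ζ₀ hζ₀
  refine ⟨μ, h1, fun ζ hζ => ?_, fun ζ hζ => ?_, h2⟩
  · refine ihta_root_sub_one_mem hp hp𝒪 a _ ?_
    rw [← Units.val_pow_eq_pow_val, (h2 ζ hζ).1, Units.val_one]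
  · intro h
    apply (h2 ζ hζ).2
    have hodd : Odd (p ^ a) := Odd.pow (hp.odd_of_ne_two hp2)
    obtain ⟨k, hk⟩ := hodd
    have h3 : (ζ : 𝒪) ^ (p ^ a) = ζ := by rw [hk, pow_succ, pow_mul, h, one_pow, one_mul]
    apply Units.ext
    rw [← h3, ← Units.val_pow_eq_pow_val, (h2 ζ hζ).1]

end

end Fermat.Agent.Ihara
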