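/-
IHARA / [TAME-ALG] (helper5), part 1: `2 × 2` matrices of determinant one over a commutative ring.

* `ihta_sq` : Cayley–Hamilton `M * M = tr M • M - det M • 1`;
* `ihta_trace_pow` : `tr (M ^ n) = α ^ n + β ^ n` if `det M = 1`, `α + β = tr M`, `α * β = 1`;
* `ihta_pow_formula` : `(α - β) • M ^ (n + 1) = (α ^ (n + 1) - β ^ (n + 1)) • M - (α ^ n - β ^ n) • 1`;
* `ihtaU t n` : the polynomials `u_n (t)` (`u_0 = 0`, `u_1 = 1`, `u_{n+2} = t u_{n+1} - u_n`) with
  `M ^ (n + 1) = u_{n+1} (tr M) • M - u_n (tr M) • 1` (`ihta_pow_eq`), and `u_n (t) ≡ n` modulo any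
  ideal containing `t - 2` (`ihtaU_sub_mem`);
* `ihta_rank_one` : `e * X * e = tr (e * X) • e` if `det e = 0`.
-/
import Mathlib

set_option autoImplicit false

namespace Fermat.Agent.Ihara

open Matrix

section

variable {R : Type*} [CommRing R]

/-- Cayley–Hamilton for `2 × 2` matrices -/
theorem ihta_sq (M : Matrix (Fin 2) (Fin 2) R) : M * M = M.trace • M - M.det • 1 := by
  ext i j
  fin_cases i <;> fin_cases j <;>
    simp [Matrix.mul_apply, Fin.sum_univ_two, Matrix.trace_fin_two, Matrix.det_fin_two] <;> ring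

/-- `tr (M ^ (n + 2)) = tr M * tr (M ^ (n + 1)) - det M * tr (M ^ n)` -/
theorem ihta_trace_pow_rec (M : Matrix (Fin 2) (Fin 2) R) (n : ℕ) :
    (M ^ (n + 2)).trace = M.trace * (M ^ (n + 1)).trace - M.det * (M ^ n).trace := by
  have h1 : M ^ (n + 2) = M.trace • M ^ (n + 1) - M.det • M ^ n := by
    rw [pow_add, pow_two, ihta_sq, mul_sub, Matrix.mul_smul, Matrix.mul_smul, mul_one, ← pow_succ]
  rw [h1, Matrix.trace_sub, Matrix.trace_smul, Matrix.trace_smul, smul_eq_mul, smul_eq_mul]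

/-- the trace of a power of a matrix of determinant one in terms of the "eigenvalues" -/
theorem ihta_trace_pow (M : Matrix (Fin 2) (Fin 2) R) (hdet : M.det = 1) (α β : R)
    (hs : α + β = M.trace) (hp : α * β = 1) (n : ℕ) : (M ^ n).trace = α ^ n + β ^ n := by
  induction n using Nat.twoStepInduction with
  | zero =>
    rw [pow_zero, pow_zero, pow_zero, Matrix.trace_one, Fintype.card_fin]; norm_num
  | one => rw [pow_one, pow_one, pow_one, hs]
  | more n ih0 ih1 =>
    rw [ihta_trace_pow_rec, hdet, ih0, ih1, ← hs]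
    linear_combination (α ^ n + β ^ n) * hp

/-- the polynomials `u_n (t)` : `u_0 = 0`, `u_1 = 1`, `u_{n+2} = t u_{n+1} - u_n` -/
def ihtaU (t : R) : ℕ → R
  | 0 => 0
  | 1 => 1
  | (n + 2) => t * ihtaU t (n + 1) - ihtaU t n

@[simp] theorem ihtaU_zero (t : R) : ihtaU t 0 = 0 := rfl

@[simp] theorem ihtaU_one (t : R) : ihtaU t 1 = 1 := rfl

theorem ihtaU_add_two (t : R) (n : ℕ) :
    ihtaU t (n + 2) = t * ihtaU t (n + 1) - ihtaU t n := rfl

/-- powers of a matrix of determinant one -/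
theorem ihta_pow_eq (M : Matrix (Fin 2) (Fin 2) R) (hdet : M.det = 1) (n : ℕ) :
    M ^ (n + 1) = ihtaU M.trace (n + 1) • M - ihtaU M.trace n • 1 := by
  induction n with
  | zero => simp
  | succ n ih =>
    rw [pow_succ, ih, sub_mul, Matrix.smul_mul, Matrix.smul_mul, one_mul, ihta_sq, hdet, one_smul,
      ihtaU_add_two, smul_sub, smul_smul, sub_smul, mul_comm]
    abel

/-- `u_n (t) ≡ n` modulo `t - 2` -/
theorem ihtaU_sub_mem (I : Ideal R) (t : R) (ht : t - 2 ∈ I) (n : ℕ) :
    ihtaU t n - (n : R) ∈ I := by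
  induction n using Nat.twoStepInduction with
  | zero => simp
  | one => simp
  | more n ih0 ih1 =>
    have h : ihtaU t (n + 2) - ((n + 2 : ℕ) : R) =
        (t - 2) * ihtaU t (n + 1) + 2 * (ihtaU t (n + 1) - ((n + 1 : ℕ) : R))
          - (ihtaU t n - (n : R)) := by
      rw [ihtaU_add_two]; push_cast; ring
    rw [h]
    exact I.sub_mem (I.add_mem (I.mul_mem_right _ ht) (I.mul_mem_left _ ih1)) ih0

/-- `(α - β) u_n (α + β) = α ^ n - β ^ n` if `α β = 1` -/
theorem ihtaU_eigen (t α β : R) (hs : α + β = t) (hp : α * β = 1) (n : ℕ) :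
    (α - β) * ihtaU t n = α ^ n - β ^ n := by
  induction n using Nat.twoStepInduction with
  | zero => simp
  | one => simp
  | more n ih0 ih1 =>
    rw [ihtaU_add_two, mul_sub, ← mul_assoc, mul_comm (α - β) t, mul_assoc, ih0, ih1, ← hs]
    linear_combination (α ^ n - β ^ n) * hp

/-- powers of a matrix of determinant one in terms of the "eigenvalues" -/
theorem ihta_pow_formula (M : Matrix (Fin 2) (Fin 2) R) (hdet : M.det = 1) (α β : R)
    (hs : α + β = M.trace) (hp : α * β = 1) (n : ℕ) :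
    (α - β) • M ^ (n + 1) = (α ^ (n + 1) - β ^ (n + 1)) • M - (α ^ n - β ^ n) • 1 := by
  rw [ihta_pow_eq M hdet, smul_sub, smul_smul, smul_smul, ihtaU_eigen _ α β hs hp,
    ihtaU_eigen _ α β hs hp]

/-- a `2 × 2` matrix of determinant zero is "of rank one" -/
theorem ihta_rank_one (e X : Matrix (Fin 2) (Fin 2) R) (he : e.det = 0) :
    e * X * e = (e * X).trace • e := by
  rw [Matrix.det_fin_two] at he
  ext i j
  fin_cases i <;> fin_cases j <;>
    simp [Matrix.mul_apply, Fin.sum_univ_two, Matrix.trace_fin_two]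
  · linear_combination (-(X 1 1)) * he
  · linear_combination (X 0 1) * he
  · linear_combination (X 1 0) * he
  · linear_combination (-(X 0 0)) * he

/-- `M * (tr M - M) = det M` -/
theorem ihta_mul_adj (M : Matrix (Fin 2) (Fin 2) R) : M * (M.trace • 1 - M) = M.det • 1 := by
  rw [mul_sub, ihta_sq, Matrix.mul_smul, mul_one]
  abel

end

end Fermat.Agent.Ihara
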