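/-
IHARA / [TAME-ALG] (helper5), part 4: **(F1) the type relations at a C-prime.**

`A` a local ring of residue characteristic `p` odd; `Sg, Ph ∈ M₂(A)` (images of a tame generator and
of a Frobenius lift at `v`), `Ph` invertible, `Sg ≡ 1 mod 𝔪`, `det Sg = 1`,
`Ph * Sg = Sg ^ v * Ph`, `v = 1 + p ^ a * u`, `p ∤ u`, `0 < a`.

* `ihta_C_eigen` : for every ring hom `f : A → L` into a field and every root `α ∈ L` of
  `X² - f (tr Sg) X + 1` : `α ^ (p ^ a) = 1`;
* `ihta_C_pow_eq_one` : if moreover `α ≠ 1` then `(f Sg) ^ (p ^ a) = 1`, hence `f Ph` and `f Sg`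
  commute (`ihta_C_comm_point`);
* `ihta_C_point` : for a point `ψ : A → D` (`D` a domain) with `ψ (tr Sg) ≠ 2` and a finite set
  `μ ⊆ 𝒪ˣ` with `X ^ (p ^ a) - 1 = (X - 1) ∏_{ζ ∈ μ} (X - ζ)` :
  `ψ (∏_{ζ ∈ μ} (tr Sg - (ζ + ζ⁻¹))) = 0` and `ψ (Ph * Sg) = ψ (Sg * Ph)`;
* `ihta_C_main` : if the points `ψ i : A → D i` are jointly injective and `ψ i (tr Sg) ≠ 2` for all
  `i`, then `∏_{ζ ∈ μ} (tr Sg - (ζ + ζ⁻¹)) = 0` and `Ph * Sg = Sg * Ph` in `A`
  (the two `[TC]` fields of `IhaHecke`).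
-/
import Mathlib
import Fermat.Agent.Lib.Ihara.Ta.Mat2
import Fermat.Agent.Lib.Ihara.Ta.Roots

set_option autoImplicit false
set_option linter.style.haveILetI false

namespace Fermat.Agent.Ihara

open Matrix IsLocalRing Polynomial

section

variable {A : Type*} [CommRing A] [IsLocalRing A]

/-- `α ≡ 1` for an eigenvalue of a residually trivial matrix: the integrality argument -/
theorem ihta_C_order {L : Type*} [Field L] (f : A →+* L) {p : ℕ} (hp : p.Prime)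
    (hpA : (p : A) ∈ maximalIdeal A) (t : A) (ht : t - 2 ∈ maximalIdeal A)
    (α : L) (hα : α ^ 2 - f t * α + 1 = 0) (a m' : ℕ) (hm' : ¬ p ∣ m')
    (hαm : α ^ (p ^ a * m') = 1) : α ^ (p ^ a) = 1 := by
  letI : Algebra A L := f.toAlgebra
  have hfalg : ∀ x : A, algebraMap A L x = f x := fun x => rfl
  have hint : IsIntegral A α := by
    refine ⟨X ^ 2 - (C t * X - 1), ?_, ?_⟩
    · refine monic_X_pow_sub ?_
      refine lt_of_le_of_lt (degree_sub_le _ _) ?_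
      refine max_lt (lt_of_le_of_lt (degree_C_mul_X_le _) (by norm_num)) ?_
      exact lt_of_le_of_lt degree_one_le (by norm_num)
    · rw [eval₂_sub, eval₂_sub, eval₂_mul, eval₂_C, eval₂_X, eval₂_one, eval₂_pow, eval₂_X, hfalg]
      linear_combination hα
  set B : Subalgebra A L := Algebra.adjoin A {α} with hB
  haveI : Algebra.IsIntegral A B :=
    le_integralClosure_iff_isIntegral.mp (adjoin_le_integralClosure hint)
  obtain ⟨𝔫, h𝔫⟩ := Ideal.exists_maximal B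
  haveI := h𝔫
  have hcomap : Ideal.comap (algebraMap A B) 𝔫 = maximalIdeal A :=
    IsLocalRing.eq_maximalIdeal (Ideal.isMaximal_comap_of_isIntegral_of_isMaximal 𝔫)
  have hmem : ∀ x ∈ maximalIdeal A, algebraMap A B x ∈ 𝔫 := by
    intro x hx
    rw [← hcomap] at hx
    exact hx
  set αB : B := ⟨α, Algebra.subset_adjoin (Set.mem_singleton α)⟩ with hαB
  have h1 : (αB - 1) ^ 2 = algebraMap A B (t - 2) * αB := by
    apply Subtype.ext
    show (α - 1) ^ 2 = f (t - 2) * α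
    rw [map_sub, map_ofNat]
    linear_combination hα
  have h2 : αB - 1 ∈ 𝔫 := by
    refine Ideal.IsPrime.mem_of_pow_mem h𝔫.isPrime 2 ?_
    rw [h1]
    exact Ideal.mul_mem_right _ _ (hmem _ ht)
  have hpB : ((p : ℕ) : B) ∈ 𝔫 := by
    have := hmem _ hpA
    rwa [map_natCast] at this
  have h3 : (αB ^ (p ^ a)) ^ m' = 1 := by
    apply Subtype.ext
    simp only [hαB, Subalgebra.coe_pow, Subalgebra.coe_one]
    rw [← pow_mul, hαm]
  have h4 := ihta_eq_one_of_pow_domain 𝔫 h𝔫.ne_top hp hpB (ihta_pow_sub_one_mem 𝔫 h2 (p ^ a)) hm' h3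
  have h5 := congrArg (fun z : B => (z : L)) h4
  simpa [hαB] using h5

/-- `tr Sg ≡ 2` -/
theorem ihta_trace_sub_two_mem (Sg : Matrix (Fin 2) (Fin 2) A)
    (hSg1 : ∀ i j, (Sg - 1) i j ∈ maximalIdeal A) : Sg.trace - 2 ∈ maximalIdeal A := by
  have h1 : Sg.trace - 2 = (Sg - 1) 0 0 + (Sg - 1) 1 1 := by
    rw [Matrix.trace_fin_two, Matrix.sub_apply, Matrix.sub_apply, Matrix.one_apply_eq,
      Matrix.one_apply_eq]
    ring
  rw [h1]
  exact Ideal.add_mem _ (hSg1 0 0) (hSg1 1 1)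

/-- **the eigenvalues of `Sg` at a point are `p ^ a`-th roots of unity** -/
theorem ihta_C_eigen {L : Type*} [Field L] (f : A →+* L) {p : ℕ} (hp : p.Prime) (hp2 : p ≠ 2)
    (hpA : (p : A) ∈ maximalIdeal A)
    (Sg Ph Ph' : Matrix (Fin 2) (Fin 2) A) (hPh : Ph' * Ph = 1)
    (hSg1 : ∀ i j, (Sg - 1) i j ∈ maximalIdeal A) (hdet : Sg.det = 1)
    (v a u : ℕ) (hv : v = 1 + p ^ a * u) (hu : ¬ p ∣ u) (ha : 0 < a)
    (hrel : Ph * Sg = Sg ^ v * Ph)
    (α : L) (hα : α ^ 2 - f Sg.trace * α + 1 = 0) : α ^ (p ^ a) = 1 := by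
  set β : L := f Sg.trace - α with hβ
  have hprod : α * β = 1 := by rw [hβ]; linear_combination (-1 : L) * hα
  set S : Matrix (Fin 2) (Fin 2) L := f.mapMatrix Sg with hS
  set F : Matrix (Fin 2) (Fin 2) L := f.mapMatrix Ph with hF
  set F' : Matrix (Fin 2) (Fin 2) L := f.mapMatrix Ph' with hF'
  have hdetS : S.det = 1 := by rw [hS, ← RingHom.map_det, hdet, map_one]
  have htrS : S.trace = f Sg.trace := by
    rw [hS, Matrix.trace_fin_two, Matrix.trace_fin_two, map_add]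
    rfl
  have hsum : α + β = S.trace := by rw [htrS, hβ]; ring
  have hFF : F' * F = 1 := by rw [hF, hF', ← map_mul, hPh, map_one]
  have hrelL : F * S = S ^ v * F := by rw [hF, hS, ← map_mul, hrel, map_mul, map_pow]
  -- `tr (S ^ v) = tr S`
  have h1 : (S ^ v).trace = S.trace := by
    have h2 : S ^ v = F * S * F' := by
      rw [hrelL, mul_assoc, mul_eq_one_comm.mp hFF, mul_one]
    rw [h2, Matrix.trace_mul_cycle, hFF, one_mul]
  rw [ihta_trace_pow S hdetS α β hsum hprod, ← hsum] at h1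
  -- `(α ^ (w + 2) - 1) * (α ^ w - 1) = 0`
  set w := p ^ a * u with hw
  have hv' : v = w + 1 := by omega
  rw [hv'] at h1
  have h3 : (α ^ (w + 2) - 1) * (α ^ w - 1) = 0 := by
    have e1 : α ^ (w + 1) * β ^ (w + 1) = 1 := by rw [← mul_pow, hprod, one_pow]
    have e2 : α ^ (w + 1) * β = α ^ w := by rw [pow_succ, mul_assoc, hprod, mul_one]
    linear_combination α ^ (w + 1) * h1 - e1 + e2
  have h4 : α ^ (p ^ a * (u * (w + 2))) = 1 := by
    have e3 : p ^ a * (u * (w + 2)) = w * (w + 2) := by rw [hw]; ring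
    rw [e3]
    rcases mul_eq_zero.1 h3 with h | h
    · rw [mul_comm, pow_mul, sub_eq_zero.1 h, one_pow]
    · rw [pow_mul, sub_eq_zero.1 h, one_pow]
  have hm' : ¬ p ∣ u * (w + 2) := by
    intro h
    rcases (Nat.Prime.dvd_mul hp).1 h with h | h
    · exact hu h
    · have h5 : p ∣ w := by
        rw [hw]
        exact Dvd.dvd.mul_right (dvd_pow_self p (Nat.pos_iff_ne_zero.1 ha)) u
      have h6 : p ∣ 2 := (Nat.dvd_add_right h5).1 h
      exact hp2 ((Nat.prime_dvd_prime_iff_eq hp Nat.prime_two).1 h6)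
  exact ihta_C_order f hp hpA Sg.trace (ihta_trace_sub_two_mem Sg hSg1) α hα a _ hm' h4

omit [IsLocalRing A] in
/-- if an eigenvalue `α ≠ 1` of `f Sg` is a `p ^ a`-th root of unity (`p` odd), then
`(f Sg) ^ (p ^ a) = 1` -/
theorem ihta_C_pow_eq_one {L : Type*} [Field L] (f : A →+* L) {p : ℕ} (hp : p.Prime)
    (hp2 : p ≠ 2) (Sg : Matrix (Fin 2) (Fin 2) A) (hdet : Sg.det = 1) (a : ℕ)
    (α : L) (hα : α ^ 2 - f Sg.trace * α + 1 = 0) (hα1 : α ≠ 1) (hαp : α ^ (p ^ a) = 1) :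
    (f.mapMatrix Sg) ^ (p ^ a) = 1 := by
  set β : L := f Sg.trace - α with hβ
  have hprod : α * β = 1 := by rw [hβ]; linear_combination (-1 : L) * hα
  set S : Matrix (Fin 2) (Fin 2) L := f.mapMatrix Sg with hS
  have hdetS : S.det = 1 := by rw [hS, ← RingHom.map_det, hdet, map_one]
  have htrS : S.trace = f Sg.trace := by
    rw [hS, Matrix.trace_fin_two, Matrix.trace_fin_two, map_add]
    rfl
  have hsum : α + β = S.trace := by rw [htrS, hβ]; ring
  have hpa : 0 < p ^ a := pow_pos hp.pos a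
  obtain ⟨n, hn⟩ : ∃ n, p ^ a = n + 1 := ⟨p ^ a - 1, by omega⟩
  have hβp : β ^ (p ^ a) = 1 := by
    have : α ^ (p ^ a) * β ^ (p ^ a) = 1 := by rw [← mul_pow, hprod, one_pow]
    rwa [hαp, one_mul] at this
  rw [hn] at hαp hβp ⊢
  have hαn : α ^ n = β := by
    have : α ^ n = α ^ (n + 1) * β := by rw [pow_succ, mul_assoc, hprod, mul_one]
    rw [this, hαp, one_mul]
  have hβn : β ^ n = α := by
    have : β ^ n = β ^ (n + 1) * α := by rw [pow_succ, mul_assoc, mul_comm β α, hprod, mul_one]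
    rw [this, hβp, one_mul]
  -- `α ≠ β`
  have hne : α - β ≠ 0 := by
    intro h
    have h1 : α = β := sub_eq_zero.1 h
    have h2 : α ^ 2 = 1 := by rw [pow_two]; nth_rewrite 2 [h1]; exact hprod
    -- `n + 1` is odd
    have hodd : Odd (n + 1) := by
      rw [← hn]
      exact Odd.pow (hp.odd_of_ne_two hp2)
    obtain ⟨k, hk⟩ := hodd
    have h3 : α ^ (n + 1) = α := by rw [hk, pow_succ, pow_mul, h2, one_pow, one_mul]
    exact hα1 (h3 ▸ hαp)
  have h4 := ihta_pow_formula S hdetS α β hsum hprod n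
  rw [hαp, hβp, sub_self, zero_smul, zero_sub, hαn, hβn, ← neg_smul, neg_sub] at h4
  have h5 : (α - β) • (S ^ (n + 1) - 1) = 0 := by rw [smul_sub, h4, sub_self]
  rcases smul_eq_zero.1 h5 with h | h
  · exact absurd h hne
  · exact sub_eq_zero.1 h

/-- **commutation at a point** -/
theorem ihta_C_comm_point {L : Type*} [Field L] (f : A →+* L) {p : ℕ} (hp : p.Prime)
    (hp2 : p ≠ 2) (hpA : (p : A) ∈ maximalIdeal A)
    (Sg Ph Ph' : Matrix (Fin 2) (Fin 2) A) (hPh : Ph' * Ph = 1)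
    (hSg1 : ∀ i j, (Sg - 1) i j ∈ maximalIdeal A) (hdet : Sg.det = 1)
    (v a u : ℕ) (hv : v = 1 + p ^ a * u) (hu : ¬ p ∣ u) (ha : 0 < a)
    (hrel : Ph * Sg = Sg ^ v * Ph)
    (α : L) (hα : α ^ 2 - f Sg.trace * α + 1 = 0) (hα1 : α ≠ 1) :
    f.mapMatrix (Ph * Sg) = f.mapMatrix (Sg * Ph) := by
  have h1 := ihta_C_eigen f hp hp2 hpA Sg Ph Ph' hPh hSg1 hdet v a u hv hu ha hrel α hα
  have h2 := ihta_C_pow_eq_one f hp hp2 Sg hdet a α hα hα1 h1
  rw [hrel, map_mul, map_mul, map_pow, hv, pow_add, pow_one, pow_mul, h2, one_pow, mul_one]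

/-- a monic quadratic polynomial over an algebraically closed field has a root -/
theorem ihta_exists_root {L : Type*} [Field L] [IsAlgClosed L] (t : L) :
    ∃ α : L, α ^ 2 - t * α + 1 = 0 := by
  have hdeg : (X ^ 2 - (C t * X - 1) : L[X]).degree = 2 := by
    have h1 : (C t * X - 1 : L[X]).degree < ((X : L[X]) ^ 2).degree := by
      rw [degree_X_pow]
      refine lt_of_le_of_lt (degree_sub_le _ _) ?_
      refine max_lt (lt_of_le_of_lt (degree_C_mul_X_le _) (by norm_num)) ?_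
      exact lt_of_le_of_lt degree_one_le (by norm_num)
    rw [degree_sub_eq_left_of_degree_lt h1, degree_X_pow]
    rfl
  obtain ⟨α, hα⟩ := IsAlgClosed.exists_root (X ^ 2 - (C t * X - 1) : L[X])
    (by rw [hdeg]; norm_num)
  refine ⟨α, ?_⟩
  rw [IsRoot.def, eval_sub, eval_sub, eval_mul, eval_C, eval_X, eval_one, eval_pow, eval_X] at hα
  linear_combination hα

variable {𝒪 : Type*} [CommRing 𝒪] [Algebra 𝒪 A]

/-- **(F1) at one point** `ψ : A → D` (a domain) -/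
theorem ihta_C_point {D : Type*} [CommRing D] [IsDomain D] (ψ : A →+* D) {p : ℕ} (hp : p.Prime)
    (hp2 : p ≠ 2) (hpA : (p : A) ∈ maximalIdeal A)
    (Sg Ph Ph' : Matrix (Fin 2) (Fin 2) A) (hPh : Ph' * Ph = 1)
    (hSg1 : ∀ i j, (Sg - 1) i j ∈ maximalIdeal A) (hdet : Sg.det = 1)
    (v a u : ℕ) (hv : v = 1 + p ^ a * u) (hu : ¬ p ∣ u) (ha : 0 < a)
    (hrel : Ph * Sg = Sg ^ v * Ph)
    (μ : Finset 𝒪ˣ)
    (hμ : (X ^ (p ^ a) - 1 : 𝒪[X]) = (X - 1) * ∏ ζ ∈ μ, (X - C (ζ : 𝒪)))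
    (hne : ψ Sg.trace ≠ 2) :
    ψ (∏ ζ ∈ μ, (Sg.trace - algebraMap 𝒪 A ((ζ : 𝒪) + ((ζ⁻¹ : 𝒪ˣ) : 𝒪)))) = 0 ∧
      ψ.mapMatrix (Ph * Sg) = ψ.mapMatrix (Sg * Ph) := by
  classical
  set K := FractionRing D
  set L := AlgebraicClosure K
  set ι : D →+* L := (algebraMap K L).comp (algebraMap D K) with hι
  have hιinj : Function.Injective ι :=
    (algebraMap K L).injective.comp (IsFractionRing.injective D K)
  set f : A →+* L := ι.comp ψ with hf
  obtain ⟨α, hα⟩ := ihta_exists_root (f Sg.trace)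
  have hα1 : α ≠ 1 := by
    intro h
    rw [h] at hα
    have h1 : f Sg.trace = 2 := by linear_combination (-1 : L) * hα
    apply hne
    apply hιinj
    rw [map_ofNat]
    exact h1
  have hαp := ihta_C_eigen f hp hp2 hpA Sg Ph Ph' hPh hSg1 hdet v a u hv hu ha hrel α hα
  constructor
  · -- the product
    set g : 𝒪 →+* L := f.comp (algebraMap 𝒪 A) with hg
    have h1 := congrArg (eval₂ g α) hμ
    rw [eval₂_sub, eval₂_pow, eval₂_X, eval₂_one, hαp, sub_self, eval₂_mul, eval₂_sub, eval₂_X,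
      eval₂_one, eval₂_finsetProd] at h1
    rcases mul_eq_zero.1 h1.symm with h | h
    · exact absurd (sub_eq_zero.1 h) hα1
    · obtain ⟨ζ, hζ, h2⟩ := Finset.prod_eq_zero_iff.1 h
      rw [eval₂_sub, eval₂_X, eval₂_C, sub_eq_zero] at h2
      -- `f (tr Sg) = g ζ + g ζ⁻¹`
      have h3 : g (ζ : 𝒪) * g ((ζ⁻¹ : 𝒪ˣ) : 𝒪) = 1 := by
        rw [← map_mul, ← Units.val_mul, mul_inv_cancel, Units.val_one, map_one]
      have h4 : f Sg.trace - α = g ((ζ⁻¹ : 𝒪ˣ) : 𝒪) := by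
        have h5 : α * (f Sg.trace - α) = 1 := by linear_combination (-1 : L) * hα
        have h6 : α ≠ 0 := by
          intro h0
          rw [h0, zero_mul] at h5
          exact zero_ne_one h5
        apply mul_left_cancel₀ h6
        rw [h5, h2, h3]
      apply hιinj
      rw [map_zero]
      show f _ = 0
      rw [map_prod]
      refine Finset.prod_eq_zero hζ ?_
      rw [map_sub, map_add, map_add, sub_eq_zero]
      show f Sg.trace = g _ + g _
      rw [← h4, ← h2]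
      ring
  · -- commutation
    have h1 := ihta_C_comm_point f hp hp2 hpA Sg Ph Ph' hPh hSg1 hdet v a u hv hu ha hrel α hα hα1
    ext i j
    apply hιinj
    have h2 := congrArg (fun Z : Matrix (Fin 2) (Fin 2) L => Z i j) h1
    exact h2

/-- **(F1) THE TYPE RELATIONS AT A C-PRIME.**  If the points `ψ i : A → D i` (domains) are jointly
injective and `ψ i (tr Sg) ≠ 2` for all `i`, then `∏_{ζ ∈ μ} (tr Sg - (ζ + ζ⁻¹)) = 0` and `Ph`,
`Sg` commute. -/
theorem ihta_C_main {ι : Type*} {D : ι → Type*} [∀ i, CommRing (D i)] [∀ i, IsDomain (D i)]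
    (ψ : ∀ i, A →+* D i) (hψ : ∀ x : A, (∀ i, ψ i x = 0) → x = 0)
    {p : ℕ} (hp : p.Prime) (hp2 : p ≠ 2) (hpA : (p : A) ∈ maximalIdeal A)
    (Sg Ph Ph' : Matrix (Fin 2) (Fin 2) A) (hPh : Ph' * Ph = 1)
    (hSg1 : ∀ i j, (Sg - 1) i j ∈ maximalIdeal A) (hdet : Sg.det = 1)
    (v a u : ℕ) (hv : v = 1 + p ^ a * u) (hu : ¬ p ∣ u) (ha : 0 < a)
    (hrel : Ph * Sg = Sg ^ v * Ph)
    (μ : Finset 𝒪ˣ)
    (hμ : (X ^ (p ^ a) - 1 : 𝒪[X]) = (X - 1) * ∏ ζ ∈ μ, (X - C (ζ : 𝒪)))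
    (hne : ∀ i, ψ i Sg.trace ≠ 2) :
    ∏ ζ ∈ μ, (Sg.trace - algebraMap 𝒪 A ((ζ : 𝒪) + ((ζ⁻¹ : 𝒪ˣ) : 𝒪))) = 0 ∧
      Ph * Sg = Sg * Ph := by
  have key := fun i => ihta_C_point (ψ i) hp hp2 hpA Sg Ph Ph' hPh hSg1 hdet v a u hv hu ha hrel
    μ hμ (hne i)
  refine ⟨hψ _ fun i => (key i).1, ?_⟩
  ext k l
  rw [← sub_eq_zero]
  refine hψ _ fun i => ?_
  have h1 := congrArg (fun Z : Matrix (Fin 2) (Fin 2) (D i) => Z k l) (key i).2
  rw [map_sub, sub_eq_zero]
  exact h1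

end

end Fermat.Agent.Ihara
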