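/-
IHARA / [TAME-ALG] (helper5), part 6: matrices congruent to `1` have `p`-power order modulo powers
of an ideal containing `p`.

* `IhtaMem I M` : all entries of `M` lie in the ideal `I`;
* `ihta_pow_p_sub_one` : `Y ≡ 1 mod J`, `J ≤ I`, `p ∈ I` ⟹ `Y ^ p ≡ 1 mod J * I`;
* `ihta_pow_pk_sub_one` : `Y ≡ 1 mod I`, `p ∈ I` ⟹ `Y ^ (p ^ k) ≡ 1 mod I ^ (k + 1)`.
-/
import Mathlib

set_option autoImplicit false

namespace Fermat.Agent.Ihara

open Matrix Finset

section

variable {A : Type*} [CommRing A] {n : Type*} [Fintype n] [DecidableEq n]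

/-- all entries of `M` lie in `I` -/
def IhtaMem (I : Ideal A) (M : Matrix n n A) : Prop := ∀ i j, M i j ∈ I

omit [Fintype n] [DecidableEq n] in
theorem IhtaMem.mono {I J : Ideal A} (h : I ≤ J) {M : Matrix n n A} (hM : IhtaMem I M) :
    IhtaMem J M := fun i j => h (hM i j)

omit [Fintype n] [DecidableEq n] in
theorem IhtaMem.add {I : Ideal A} {M N : Matrix n n A} (hM : IhtaMem I M) (hN : IhtaMem I N) :
    IhtaMem I (M + N) := fun i j => I.add_mem (hM i j) (hN i j)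

omit [Fintype n] [DecidableEq n] in
theorem IhtaMem.sub {I : Ideal A} {M N : Matrix n n A} (hM : IhtaMem I M) (hN : IhtaMem I N) :
    IhtaMem I (M - N) := fun i j => I.sub_mem (hM i j) (hN i j)

omit [Fintype n] [DecidableEq n] in
theorem IhtaMem.zero (I : Ideal A) : IhtaMem I (0 : Matrix n n A) := fun _ _ => I.zero_mem

omit [Fintype n] [DecidableEq n] in
theorem IhtaMem.sum {I : Ideal A} {ι : Type*} (s : Finset ι) (M : ι → Matrix n n A)
    (hM : ∀ k ∈ s, IhtaMem I (M k)) : IhtaMem I (∑ k ∈ s, M k) := by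
  classical
  induction s using Finset.induction_on with
  | empty => simpa using IhtaMem.zero I
  | insert a s ha ih =>
    rw [Finset.sum_insert ha]
    exact (hM a (Finset.mem_insert_self a s)).add
      (ih fun k hk => hM k (Finset.mem_insert_of_mem hk))

omit [DecidableEq n] in
theorem IhtaMem.mul {I J : Ideal A} {M N : Matrix n n A} (hM : IhtaMem I M) (hN : IhtaMem J N) :
    IhtaMem (I * J) (M * N) := fun i j => by
  rw [Matrix.mul_apply]
  exact Ideal.sum_mem _ fun k _ => Ideal.mul_mem_mul (hM i k) (hN k j)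

omit [DecidableEq n] in
theorem IhtaMem.mul_left {I : Ideal A} (M : Matrix n n A) {N : Matrix n n A}
    (hN : IhtaMem I N) : IhtaMem I (M * N) := fun i j => by
  rw [Matrix.mul_apply]
  exact Ideal.sum_mem _ fun k _ => I.mul_mem_left _ (hN k j)

omit [DecidableEq n] in
theorem IhtaMem.mul_right {I : Ideal A} {M : Matrix n n A} (N : Matrix n n A)
    (hM : IhtaMem I M) : IhtaMem I (M * N) := fun i j => by
  rw [Matrix.mul_apply]
  exact Ideal.sum_mem _ fun k _ => I.mul_mem_right _ (hM i k)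

/-- `Y ≡ 1 ⟹ Y ^ k ≡ 1` -/
theorem ihta_pow_sub_one_memMat {I : Ideal A} {Y : Matrix n n A} (hY : IhtaMem I (Y - 1)) (k : ℕ) :
    IhtaMem I (Y ^ k - 1) := by
  rw [← mul_geom_sum]
  exact hY.mul_right _

/-- `Y ≡ 1 mod J`, `J ≤ I ∋ p` ⟹ `Y ^ p ≡ 1 mod J * I` -/
theorem ihta_pow_p_sub_one {I J : Ideal A} (hJI : J ≤ I) {p : ℕ} (hpI : (p : A) ∈ I)
    {Y : Matrix n n A} (hY : IhtaMem J (Y - 1)) : IhtaMem (J * I) (Y ^ p - 1) := by
  rw [← mul_geom_sum]
  refine hY.mul ?_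
  have h1 : ∑ k ∈ range p, Y ^ k = ∑ k ∈ range p, (Y ^ k - 1) + (p : A) • (1 : Matrix n n A) := by
    rw [Finset.sum_sub_distrib, Finset.sum_const, card_range, Nat.cast_smul_eq_nsmul]
    abel
  rw [h1]
  refine (IhtaMem.sum _ _ fun k _ => (ihta_pow_sub_one_memMat hY k).mono hJI).add ?_
  intro i j
  rw [Matrix.smul_apply, smul_eq_mul]
  exact I.mul_mem_right _ hpI

/-- `Y ≡ 1 mod I`, `p ∈ I` ⟹ `Y ^ (p ^ k) ≡ 1 mod I ^ (k + 1)` -/
theorem ihta_pow_pk_sub_one {I : Ideal A} {p : ℕ} (hpI : (p : A) ∈ I) {Y : Matrix n n A}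
    (hY : IhtaMem I (Y - 1)) (k : ℕ) : IhtaMem (I ^ (k + 1)) (Y ^ (p ^ k) - 1) := by
  induction k with
  | zero => simpa using hY
  | succ k ih =>
    rw [pow_succ p k, pow_mul, pow_succ I (k + 1)]
    exact ihta_pow_p_sub_one (Ideal.pow_le_self (Nat.succ_ne_zero k)) hpI ih

end

end Fermat.Agent.Ihara
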