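/-
IHARA / [TAME-ALG] (helper5), part 7: **(F0) the tame relation** `r φ * r σ = r σ ^ v * r φ`.

`A` a local ring with `p ∈ 𝔪_A` and `⋂ 𝔪^n = 0`, `r : G_ℚ → M₂(A)` continuous (`MatCts`),
`P` a place over the prime `v ≠ p` such that `r τ ≡ 1 mod 𝔪` for all `τ` in the inertia group of
`P`.  Then for every Frobenius element `φ` at `P` and every inertia element `σ`:
`r φ * r σ = r σ ^ v * r φ` (`ihta_rel`).

Proof: the reduction of `r` modulo `𝔪 ^ n` is a `p`-test in the sense of helper9's `G1/LocGen.lean`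
(`ihta_isTest`: level from `MatCts`, `p`-power order from `ihta_pow_pk_sub_one`), so
`ihg_test_conj_pow` applies; then let `n → ∞`.
-/
import Mathlib
import Fermat.Agent.Lib.Ihara.G1.LocGen
import Fermat.Agent.Lib.S53.MatInterface
import Fermat.Agent.Lib.Ihara.Ta.Adic

set_option autoImplicit false
set_option linter.unusedSectionVars false
set_option linter.style.haveILetI false

namespace Fermat.Agent.Ihara

open Fermat.Agent.S53Lib Fermat.Agent.TW IsLocalRing ValuationSubring Matrix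

local notation "Qb" => AlgebraicClosure ℚ

section

variable {A : Type} [CommRing A] [IsLocalRing A]

/-- the reduction of a matrix representation modulo an ideal, with values in the units -/
noncomputable def ihtaRed (r : GQ →* Matrix (Fin 2) (Fin 2) A) (I : Ideal A) :
    GQ →* (Matrix (Fin 2) (Fin 2) (A ⧸ I))ˣ :=
  (((Ideal.Quotient.mk I).mapMatrix :
    Matrix (Fin 2) (Fin 2) A →+* Matrix (Fin 2) (Fin 2) (A ⧸ I)).toMonoidHom.comp r).toHomUnits

theorem ihtaRed_val (r : GQ →* Matrix (Fin 2) (Fin 2) A) (I : Ideal A) (s : GQ) :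
    ((ihtaRed r I s : (Matrix (Fin 2) (Fin 2) (A ⧸ I))ˣ) : Matrix (Fin 2) (Fin 2) (A ⧸ I))
      = (Ideal.Quotient.mk I).mapMatrix (r s) := rfl

/-- a matrix is `≡ 1` modulo `I` iff its reduction is `1` -/
theorem ihta_map_eq_one_iff (I : Ideal A) (Y : Matrix (Fin 2) (Fin 2) A) :
    (Ideal.Quotient.mk I).mapMatrix Y = 1 ↔ IhtaMem I (Y - 1) := by
  constructor
  · intro h i j
    have h1 := congrArg (fun Z : Matrix (Fin 2) (Fin 2) (A ⧸ I) => Z i j) h
    simp only [RingHom.mapMatrix_apply, Matrix.map_apply] at h1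
    rw [Matrix.sub_apply, ← Ideal.Quotient.eq, h1]
    by_cases hij : i = j
    · subst hij; simp
    · simp [Matrix.one_apply_ne hij]
  · intro h
    ext i j
    have h1 := h i j
    rw [Matrix.sub_apply, ← Ideal.Quotient.eq] at h1
    simp only [RingHom.mapMatrix_apply, Matrix.map_apply]
    rw [h1]
    by_cases hij : i = j
    · subst hij; simp
    · simp [Matrix.one_apply_ne hij]

/-- **the reduction modulo `𝔪 ^ n` is a `p`-test** -/
theorem ihta_isTest {p : ℕ} (hpA : (p : A) ∈ maximalIdeal A) (P : ValuationSubring Qb)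
    (r : GQ →* Matrix (Fin 2) (Fin 2) A) (hcts : MatCts A r)
    (hres : ∀ τ ∈ P.inertiaSubgroupIn ℚ, ∀ i j, (r τ - 1) i j ∈ maximalIdeal A) (n : ℕ) :
    IhgTest p P (ihtaRed r (maximalIdeal A ^ n)) := by
  obtain ⟨L, hL, h2⟩ := hcts n
  refine ⟨⟨L, hL, fun s hs => ?_⟩, fun τ hτ => ⟨n, ?_⟩⟩
  · rw [MonoidHom.mem_ker]
    apply Units.ext
    rw [ihtaRed_val, Units.val_one, ihta_map_eq_one_iff]
    exact h2 s ((IntermediateField.mem_fixingSubgroup_iff _ _).1 hs)
  · apply Units.ext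
    rw [Units.val_pow_eq_pow_val, ihtaRed_val, Units.val_one, ← map_pow, ihta_map_eq_one_iff]
    exact (ihta_pow_pk_sub_one hpA (hres τ hτ) n).mono (Ideal.pow_le_pow_right (Nat.le_succ n))

/-- **(F0) the tame relation** -/
theorem ihta_rel (hHaus : ∀ x : A, (∀ n, x ∈ maximalIdeal A ^ n) → x = 0)
    {p v : ℕ} (hp : p.Prime) (hv : v.Prime) (hpv : p ≠ v) (hpA : (p : A) ∈ maximalIdeal A)
    (P : ValuationSubring Qb) (hP : P.LiesOverPrime v)
    (r : GQ →* Matrix (Fin 2) (Fin 2) A) (hcts : MatCts A r)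
    (hres : ∀ τ ∈ P.inertiaSubgroupIn ℚ, ∀ i j, (r τ - 1) i j ∈ maximalIdeal A)
    {φ σ : GQ} (hφ : P.IsFrobeniusAt φ v) (hσ : σ ∈ P.inertiaSubgroupIn ℚ) :
    r φ * r σ = r σ ^ v * r φ := by
  ext i j
  rw [← sub_eq_zero]
  refine hHaus _ fun n => ?_
  have htest := ihta_isTest hpA P r hcts hres n
  have h1 := ihg_test_conj_pow hp hv hpv P hP htest hφ hσ
  have h2 := congrArg (fun u : (Matrix (Fin 2) (Fin 2) (A ⧸ maximalIdeal A ^ n))ˣ =>
    (u : Matrix (Fin 2) (Fin 2) (A ⧸ maximalIdeal A ^ n))) h1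
  simp only [Units.val_pow_eq_pow_val, ihtaRed_val] at h2
  rw [← map_pow] at h2
  -- `r (φ σ φ⁻¹) - r σ ^ v ≡ 0`
  have h3 : IhtaMem (maximalIdeal A ^ n) (r (φ * σ * φ⁻¹) - r σ ^ v) := by
    intro k l
    rw [Matrix.sub_apply, ← Ideal.Quotient.eq]
    have h4 := congrArg (fun Z : Matrix (Fin 2) (Fin 2) (A ⧸ maximalIdeal A ^ n) => Z k l) h2
    simpa only [RingHom.mapMatrix_apply, Matrix.map_apply] using h4
  have h5 : r φ * r σ - r σ ^ v * r φ = (r (φ * σ * φ⁻¹) - r σ ^ v) * r φ := by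
    rw [sub_mul, map_mul, map_mul, mul_assoc, ← map_mul r φ⁻¹ φ, inv_mul_cancel, map_one, mul_one]
  have h6 := h3.mul_right (r φ)
  rw [← h5] at h6
  have h7 := h6 i j
  rwa [Matrix.sub_apply] at h7

/-- two matrices are congruent modulo `I` iff their reductions agree -/
theorem ihta_map_eq_iff (I : Ideal A) (Y Z : Matrix (Fin 2) (Fin 2) A) :
    (Ideal.Quotient.mk I).mapMatrix Y = (Ideal.Quotient.mk I).mapMatrix Z ↔ IhtaMem I (Y - Z) := by
  constructor
  · intro h i j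
    have h1 := congrArg (fun W : Matrix (Fin 2) (Fin 2) (A ⧸ I) => W i j) h
    simp only [RingHom.mapMatrix_apply, Matrix.map_apply] at h1
    rw [Matrix.sub_apply, ← Ideal.Quotient.eq, h1]
  · intro h
    ext i j
    have h1 := h i j
    rw [Matrix.sub_apply, ← Ideal.Quotient.eq] at h1
    simp only [RingHom.mapMatrix_apply, Matrix.map_apply]
    rw [h1]

/-- **the image of inertia is topologically generated by the image of a universal tame generator**:
for `σ` an `IhgGen`, every `r τ` (`τ` in the inertia group) is congruent to a power of `r σ` modulo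
every power of the maximal ideal. -/
theorem ihta_gen_pow {p : ℕ} (hp : p.Prime) (hpA : (p : A) ∈ maximalIdeal A)
    (P : ValuationSubring Qb)
    (r : GQ →* Matrix (Fin 2) (Fin 2) A) (hcts : MatCts A r)
    (hres : ∀ τ ∈ P.inertiaSubgroupIn ℚ, ∀ i j, (r τ - 1) i j ∈ maximalIdeal A)
    {σ : GQ} (hσ : IhgGen p P σ) :
    ∀ τ ∈ P.inertiaSubgroupIn ℚ, ∀ n : ℕ, ∃ k : ℕ,
      ∀ i j, (r τ - r σ ^ k) i j ∈ maximalIdeal A ^ n := by
  intro τ hτ n
  have htest := ihta_isTest hpA P r hcts hres n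
  obtain ⟨z, hz⟩ := hσ.gen (ihtaRed r (maximalIdeal A ^ n)) htest τ hτ
  obtain ⟨m, hm⟩ := htest.ppow σ hσ.mem
  simp only at hz
  have hm' : ihtaRed r (maximalIdeal A ^ n) σ ^ ((p ^ m : ℕ) : ℤ) = 1 := by
    rw [zpow_natCast, hm]
  rw [zpow_eq_zpow_emod z hm'] at hz
  have hp0 : p ≠ 0 := hp.ne_zero
  have hpm : ((p ^ m : ℕ) : ℤ) ≠ 0 := by
    exact_mod_cast pow_ne_zero m hp0
  have hnn : 0 ≤ z % ((p ^ m : ℕ) : ℤ) := Int.emod_nonneg z hpm
  obtain ⟨k, hk⟩ := Int.eq_ofNat_of_zero_le hnn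
  refine ⟨k, ?_⟩
  rw [hk, zpow_natCast] at hz
  have h2 := congrArg (fun u : (Matrix (Fin 2) (Fin 2) (A ⧸ maximalIdeal A ^ n))ˣ =>
    (u : Matrix (Fin 2) (Fin 2) (A ⧸ maximalIdeal A ^ n))) hz
  simp only [Units.val_pow_eq_pow_val, ihtaRed_val] at h2
  rw [← map_pow] at h2
  exact (ihta_map_eq_iff _ _ _).1 h2.symm

/-- a local homomorphism maps the maximal ideal into the maximal ideal -/
theorem ihta_map_mem_maximalIdeal {B : Type} [CommRing B] [IsLocalRing B] (ψ : A →+* B)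
    (hψ : IsLocalHom ψ) {x : A} (hx : x ∈ maximalIdeal A) : ψ x ∈ maximalIdeal B := by
  rw [mem_maximalIdeal, _root_.mem_nonunits_iff] at hx ⊢
  intro h
  exact hx (hψ.map_nonunit x h)

/-- `ihta_gen_pow` for the push-forward of `r` along a local homomorphism `ψ : A → B` (the form
consumed by `[NOFIX]` at a point `ψ`) -/
theorem ihta_gen_pow_map {B : Type} [CommRing B] [IsLocalRing B] (ψ : A →+* B)
    (hψ : IsLocalHom ψ) {p : ℕ} (hp : p.Prime) (hpA : (p : A) ∈ maximalIdeal A)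
    (P : ValuationSubring Qb)
    (r : GQ →* Matrix (Fin 2) (Fin 2) A) (hcts : MatCts A r)
    (hres : ∀ τ ∈ P.inertiaSubgroupIn ℚ, ∀ i j, (r τ - 1) i j ∈ maximalIdeal A)
    {σ : GQ} (hσ : IhgGen p P σ) :
    ∀ τ ∈ P.inertiaSubgroupIn ℚ, ∀ n : ℕ, ∃ k : ℕ,
      ∀ i j, (mapMat ψ r τ - mapMat ψ r σ ^ k) i j ∈ maximalIdeal B ^ n := by
  refine ihta_gen_pow hp ?_ P (mapMat ψ r) (hcts.map ψ hψ) ?_ hσ
  · have := ihta_map_mem_maximalIdeal ψ hψ hpA
    rwa [map_natCast] at this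
  · intro τ hτ i j
    have h1 := ihta_map_mem_maximalIdeal ψ hψ (hres τ hτ i j)
    rw [Matrix.sub_apply, map_sub] at h1
    rw [Matrix.sub_apply, mapMat_apply, Matrix.map_apply]
    convert h1 using 2
    by_cases hij : i = j
    · subst hij; simp
    · simp [Matrix.one_apply_ne hij]

/-- a complete local ring is separated -/
theorem ihta_haus_of_complete [IsAdicComplete (maximalIdeal A) A] (x : A)
    (hx : ∀ n, x ∈ maximalIdeal A ^ n) : x = 0 := by
  refine IsHausdorff.haus (I := maximalIdeal A) inferInstance x fun n => ?_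
  rw [SModEq.zero, smul_eq_mul, Ideal.mul_top]
  exact hx n

variable {𝒪 : Type} [CommRing 𝒪] [IsLocalRing 𝒪] [Algebra 𝒪 A] [IsLocalHom (algebraMap 𝒪 A)]

/-- a strict lift of a residual representation which is trivial at `τ` is `≡ 1` at `τ` -/
theorem ihta_hres_of_strictLift (ρbar : ResidualGaloisRep (ResidueField 𝒪))
    (b : Module.Basis (Fin 2) (ResidueField 𝒪) ρbar.V)
    (r : GQ →* Matrix (Fin 2) (Fin 2) A) (hr : IsStrictLift (𝒪 := 𝒪) (resMat ρbar b) r)
    (τ : GQ) (hτ : ρbar.ρ τ = 1) (i j : Fin 2) : (r τ - 1) i j ∈ maximalIdeal A := by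
  have h1 := hr τ
  rw [resMat_apply, hτ, Module.End.one_eq_id, LinearMap.toMatrix_id] at h1
  have h2 := congrArg (fun Z : Matrix (Fin 2) (Fin 2) (ResidueField A) => Z i j) h1
  simp only [Matrix.map_apply] at h2
  rw [← residue_eq_zero_iff, Matrix.sub_apply, map_sub, h2]
  by_cases hij : i = j
  · subst hij; simp
  · simp [Matrix.one_apply_ne hij]

/-- **(F0) for strict lifts**: the hypotheses `hSg1`, `hrel` of `ihta_C_main` / `ihta_TW_main` for
a continuous strict lift of a residual representation unramified at `v`. -/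
theorem ihta_rel_strictLift [IsAdicComplete (maximalIdeal A) A]
    {p v : ℕ} (hp : p.Prime) (hv : v.Prime) (hpv : p ≠ v) (hpA : (p : A) ∈ maximalIdeal A)
    (ρbar : ResidualGaloisRep (ResidueField 𝒪))
    (b : Module.Basis (Fin 2) (ResidueField 𝒪) ρbar.V) (hunr : ρbar.IsUnramifiedAt v)
    (P : ValuationSubring Qb) (hP : P.LiesOverPrime v)
    (r : GQ →* Matrix (Fin 2) (Fin 2) A) (hcts : MatCts A r)
    (hr : IsStrictLift (𝒪 := 𝒪) (resMat ρbar b) r)
    {φ σ : GQ} (hφ : P.IsFrobeniusAt φ v) (hσ : σ ∈ P.inertiaSubgroupIn ℚ) :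
    (∀ i j, (r σ - 1) i j ∈ maximalIdeal A) ∧ r φ⁻¹ * r φ = 1 ∧
      r φ * r σ = r σ ^ v * r φ := by
  refine ⟨ihta_hres_of_strictLift ρbar b r hr σ (hunr P hP σ hσ), ?_, ?_⟩
  · rw [← map_mul, inv_mul_cancel, map_one]
  · exact ihta_rel ihta_haus_of_complete hp hv hpv hpA P hP r hcts
      (fun τ hτ => ihta_hres_of_strictLift ρbar b r hr τ (hunr P hP τ hτ)) hφ hσ

end

end Fermat.Agent.Ihara
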