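/-
IHARA / [TAME-ALG] (helper5), part 3: **(F2) the inertia scalar at a Taylor–Wiles prime.**

`A` a local ring of residue characteristic `p`; `Sg, Ph ∈ M₂(A)` (the images of a tame generator and
of a Frobenius lift at `q`), `Ph` invertible, `Sg ≡ 1 mod 𝔪`, `det Sg = 1`,
`Ph * Sg = Sg ^ q * Ph`, `q = 1 + p ^ c * u`, `p ∤ u`, `0 < c`; `al, be ∈ A` the roots of the
characteristic polynomial of `Ph` (`al + be = tr Ph`, `al * be = det Ph`) with `al - be` a unit.
Then with `e = (Ph - be) / (al - be)` (the projector onto the `al`-eigenline) and `aq = tr (e * Sg)`: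
`Sg = aq • e + aq⁻¹ • (1 - e)`, `aq ≡ 1`, `aq ^ (p ^ c) = 1`, `tr Sg = aq + aq⁻¹`, and `Sg` commutes
with `Ph` (`ihta_TW_main`).

`ihta_TW_hensel` : the roots `al, be` exist when `A` is Henselian and the characteristic polynomial
has residually distinct roots.
-/
import Mathlib
import Fermat.Agent.Lib.Ihara.Ta.Mat2
import Fermat.Agent.Lib.Ihara.Ta.Roots

set_option autoImplicit false

namespace Fermat.Agent.Ihara

open Matrix IsLocalRing

section

variable {A : Type*} [CommRing A]

/-- the spectral projectors of a `2 × 2` matrix whose characteristic polynomial has the roots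
`al, be` with `di * (al - be) = 1` -/
theorem ihta_proj (Ph : Matrix (Fin 2) (Fin 2) A) (al be di : A) (hsum : al + be = Ph.trace)
    (hprod : al * be = Ph.det) (hdi : di * (al - be) = 1) :
    ∃ e f : Matrix (Fin 2) (Fin 2) A, e + f = 1 ∧ e * f = 0 ∧ f * e = 0 ∧ e * e = e ∧ f * f = f ∧
      Ph * e = al • e ∧ e * Ph = al • e ∧ Ph * f = be • f ∧ f * Ph = be • f ∧
      e.trace = 1 ∧ f.trace = 1 ∧ e.det = 0 ∧ f.det = 0 ∧ Ph = al • e + be • f := by
  have hCH := ihta_sq Ph
  rw [← hsum, ← hprod] at hCH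
  set e : Matrix (Fin 2) (Fin 2) A := di • (Ph - be • 1) with he
  set f : Matrix (Fin 2) (Fin 2) A := di • (al • 1 - Ph) with hf
  have hef1 : e + f = 1 := by
    rw [he, hf, ← smul_add, sub_add_sub_cancel', ← sub_smul, smul_smul, hdi, one_smul]
  have h1 : (Ph - be • 1) * (al • 1 - Ph) = 0 := by
    rw [sub_mul, mul_sub, mul_sub, hCH]
    simp only [Matrix.mul_smul, Matrix.smul_mul, mul_one, one_mul, smul_smul]
    rw [add_smul]
    abel
  have h2 : (al • 1 - Ph) * (Ph - be • 1) = 0 := by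
    rw [sub_mul, mul_sub, mul_sub, hCH]
    simp only [Matrix.mul_smul, Matrix.smul_mul, mul_one, one_mul, smul_smul]
    rw [add_smul, mul_comm be al]
    abel
  have hef : e * f = 0 := by
    rw [he, hf, Matrix.smul_mul, Matrix.mul_smul, h1, smul_zero, smul_zero]
  have hfe : f * e = 0 := by
    rw [he, hf, Matrix.smul_mul, Matrix.mul_smul, h2, smul_zero, smul_zero]
  have hee : e * e = e := by
    have : e * (e + f) = e := by rw [hef1, mul_one]
    rw [mul_add, hef, add_zero] at this
    exact this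
  have hff : f * f = f := by
    have : f * (e + f) = f := by rw [hef1, mul_one]
    rw [mul_add, hfe, zero_add] at this
    exact this
  have h3 : Ph * (Ph - be • 1) = al • (Ph - be • 1) := by
    have : (Ph - al • 1) * (Ph - be • 1) = 0 := by
      have h4 : Ph - al • 1 = -(al • 1 - Ph) := by abel
      rw [h4, neg_mul, h2, neg_zero]
    rw [sub_mul, sub_eq_zero, Matrix.smul_mul, one_mul] at this
    exact this
  have h3' : (Ph - be • 1) * Ph = al • (Ph - be • 1) := by
    rw [← h3, sub_mul, mul_sub, Matrix.smul_mul, Matrix.mul_smul, one_mul, mul_one]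
  have h5 : Ph * (al • 1 - Ph) = be • (al • 1 - Ph) := by
    have : (Ph - be • 1) * (al • 1 - Ph) = 0 := h1
    rw [sub_mul, sub_eq_zero, Matrix.smul_mul, one_mul] at this
    exact this
  have h5' : (al • 1 - Ph) * Ph = be • (al • 1 - Ph) := by
    rw [← h5, sub_mul, mul_sub, Matrix.smul_mul, Matrix.mul_smul, one_mul, mul_one]
  have hPe : Ph * e = al • e := by rw [he, Matrix.mul_smul, h3, smul_comm]
  have hPf : Ph * f = be • f := by rw [hf, Matrix.mul_smul, h5, smul_comm]
  have htre : e.trace = 1 := by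
    rw [he, Matrix.trace_smul, Matrix.trace_sub, Matrix.trace_smul, Matrix.trace_one,
      Fintype.card_fin, ← hsum, smul_eq_mul, smul_eq_mul]
    linear_combination hdi
  have htrf : f.trace = 1 := by
    have : (e + f).trace = 2 := by rw [hef1, Matrix.trace_one, Fintype.card_fin]; norm_num
    rw [Matrix.trace_add, htre] at this
    linear_combination this
  have hdet1 : (Ph - be • (1 : Matrix (Fin 2) (Fin 2) A)).det = 0 := by
    rw [Matrix.det_fin_two] at hprod ⊢
    rw [Matrix.trace_fin_two] at hsum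
    simp only [Matrix.sub_apply, Matrix.smul_apply, Matrix.one_apply_eq, smul_eq_mul, mul_one,
      Matrix.one_apply_ne (show (0 : Fin 2) ≠ 1 by decide),
      Matrix.one_apply_ne (show (1 : Fin 2) ≠ 0 by decide), mul_zero, sub_zero]
    linear_combination be * hsum - hprod
  have hdet2 : (al • (1 : Matrix (Fin 2) (Fin 2) A) - Ph).det = 0 := by
    rw [Matrix.det_fin_two] at hprod ⊢
    rw [Matrix.trace_fin_two] at hsum
    simp only [Matrix.sub_apply, Matrix.smul_apply, Matrix.one_apply_eq, smul_eq_mul, mul_one,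
      Matrix.one_apply_ne (show (0 : Fin 2) ≠ 1 by decide),
      Matrix.one_apply_ne (show (1 : Fin 2) ≠ 0 by decide), mul_zero, zero_sub]
    linear_combination al * hsum - hprod
  refine ⟨e, f, hef1, hef, hfe, hee, hff, hPe, ?_, hPf, ?_, htre, htrf, ?_, ?_, ?_⟩
  · rw [he, Matrix.smul_mul, h3', smul_comm]
  · rw [hf, Matrix.smul_mul, h5', smul_comm]
  · rw [he, Matrix.det_smul, hdet1, mul_zero]
  · rw [hf, Matrix.det_smul, hdet2, mul_zero]
  · have : Ph * (e + f) = Ph := by rw [hef1, mul_one]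
    rw [mul_add, hPe, hPf] at this
    exact this.symm

/-- multiplication of "diagonal" matrices with respect to orthogonal idempotents -/
theorem ihta_diag_mul {e f : Matrix (Fin 2) (Fin 2) A} (hee : e * e = e) (hff : f * f = f)
    (hef : e * f = 0) (hfe : f * e = 0) (a b c d : A) :
    (a • e + b • f) * (c • e + d • f) = (a * c) • e + (b * d) • f := by
  rw [add_mul, mul_add, mul_add]
  simp only [Matrix.smul_mul, Matrix.mul_smul, hee, hff, hef, hfe, smul_zero, add_zero, zero_add,
    smul_smul]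
  congr 2 <;> ring

/-- **(F2)** the inertia scalar at a Taylor–Wiles prime -/
theorem ihta_TW_main [IsLocalRing A] {p : ℕ} (hp : p.Prime)
    (hpA : (p : A) ∈ maximalIdeal A)
    (Sg Ph Ph' : Matrix (Fin 2) (Fin 2) A) (hPh : Ph' * Ph = 1)
    (hSg1 : ∀ i j, (Sg - 1) i j ∈ maximalIdeal A) (hdet : Sg.det = 1)
    (q c u : ℕ) (hq : q = 1 + p ^ c * u) (hu : ¬ p ∣ u) (hc : 0 < c)
    (hrel : Ph * Sg = Sg ^ q * Ph)
    (al be : A) (hsum : al + be = Ph.trace) (hprod : al * be = Ph.det)
    (hunit : IsUnit (al - be)) :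
    ∃ (aq aq' : A) (e : Matrix (Fin 2) (Fin 2) A),
      aq * aq' = 1 ∧ aq ^ (p ^ c) = 1 ∧ aq - 1 ∈ maximalIdeal A ∧
      e * e = e ∧ e.trace = 1 ∧ Ph * e = al • e ∧ e * Ph = al • e ∧
      aq = (e * Sg).trace ∧
      Sg = aq • e + aq' • (1 - e) ∧ Sg.trace = aq + aq' ∧ Ph * Sg = Sg * Ph := by
  have hPh2 : Ph * Ph' = 1 := mul_eq_one_comm.mp hPh
  obtain ⟨δ, hδ⟩ := hunit
  have hdi : ((δ⁻¹ : Aˣ) : A) * (al - be) = 1 := by rw [← hδ]; exact Units.inv_mul δ
  obtain ⟨e, f, hef1, hef, hfe, hee, hff, hPe, heP, hPf, hfP, htre, htrf, hdete, hdetf, hPhef⟩ :=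
    ihta_proj Ph al be _ hsum hprod hdi
  -- `tr Sg ≡ 2`
  have ht : Sg.trace - 2 ∈ maximalIdeal A := by
    have h1 : Sg.trace - 2 = (Sg - 1) 0 0 + (Sg - 1) 1 1 := by
      rw [Matrix.trace_fin_two, Matrix.sub_apply, Matrix.sub_apply, Matrix.one_apply_eq,
        Matrix.one_apply_eq]
      ring
    rw [h1]
    exact Ideal.add_mem _ (hSg1 0 0) (hSg1 1 1)
  set n := p ^ c * u with hn
  have hq' : q = n + 1 := by omega
  have hnA : (n : A) ∈ maximalIdeal A := by
    rw [hn]
    push_cast
    exact Ideal.mul_mem_right _ _ (Ideal.pow_mem_of_mem _ hpA c hc)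
  -- `u_q (tr Sg) ≡ 1`
  set U := ihtaU Sg.trace (n + 1) with hU
  have hU1 : U - 1 ∈ maximalIdeal A := by
    have h1 := ihtaU_sub_mem (maximalIdeal A) Sg.trace ht (n + 1)
    have h2 : U - 1 = (ihtaU Sg.trace (n + 1) - ((n + 1 : ℕ) : A)) + (n : A) := by
      push_cast
      ring
    rw [h2]
    exact Ideal.add_mem _ h1 hnA
  have hrel' : Ph * Sg = U • (Sg * Ph) - ihtaU Sg.trace n • Ph := by
    rw [hrel, hq', ihta_pow_eq Sg hdet, sub_mul, Matrix.smul_mul, Matrix.smul_mul, one_mul]
  -- the off-diagonal parts vanish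
  have hunit1 : IsUnit (al - U * be) := by
    have h1 : al - U * be = (al - be) + (-(U - 1) * be) := by ring
    rw [h1, ← hδ]
    exact ihta_isUnit_add δ.isUnit (Ideal.mul_mem_right _ _ (Ideal.neg_mem_iff _ |>.2 hU1))
  have hunit2 : IsUnit (be - U * al) := by
    have h1 : be - U * al = -(al - be) + (-(U - 1) * al) := by ring
    rw [h1, ← hδ]
    exact ihta_isUnit_add δ.isUnit.neg (Ideal.mul_mem_right _ _ (Ideal.neg_mem_iff _ |>.2 hU1))
  have hesf : e * Sg * f = 0 := by
    have h1 := congrArg (fun Z => e * Z * f) hrel'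
    have ha : e * (Ph * Sg) * f = al • (e * Sg * f) := by
      rw [← mul_assoc, heP, Matrix.smul_mul, Matrix.smul_mul]
    have hb : e * (U • (Sg * Ph) - ihtaU Sg.trace n • Ph) * f = (U * be) • (e * Sg * f) := by
      rw [mul_sub, sub_mul, Matrix.mul_smul, Matrix.smul_mul, Matrix.mul_smul, Matrix.smul_mul,
        heP, Matrix.smul_mul, hef, smul_zero, smul_zero, sub_zero, ← mul_assoc, mul_assoc _ Ph f,
        hPf, Matrix.mul_smul, smul_smul]
    rw [ha, hb] at h1
    have h2 : (al - U * be) • (e * Sg * f) = 0 := by rw [sub_smul, h1, sub_self]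
    exact (hunit1.smul_eq_zero).1 h2
  have hfse : f * Sg * e = 0 := by
    have h1 := congrArg (fun Z => f * Z * e) hrel'
    have ha : f * (Ph * Sg) * e = be • (f * Sg * e) := by
      rw [← mul_assoc, hfP, Matrix.smul_mul, Matrix.smul_mul]
    have hb : f * (U • (Sg * Ph) - ihtaU Sg.trace n • Ph) * e = (U * al) • (f * Sg * e) := by
      rw [mul_sub, sub_mul, Matrix.mul_smul, Matrix.smul_mul, Matrix.mul_smul, Matrix.smul_mul,
        hfP, Matrix.smul_mul, hfe, smul_zero, smul_zero, sub_zero, ← mul_assoc, mul_assoc _ Ph e,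
        hPe, Matrix.mul_smul, smul_smul]
    rw [ha, hb] at h1
    have h2 : (be - U * al) • (f * Sg * e) = 0 := by rw [sub_smul, h1, sub_self]
    exact (hunit2.smul_eq_zero).1 h2
  -- `Sg` is diagonal
  set aq := (e * Sg).trace with haq
  set dq := (f * Sg).trace with hdq
  have hSg : Sg = aq • e + dq • f := by
    have h1 : Sg = (e + f) * Sg * (e + f) := by rw [hef1, one_mul, mul_one]
    rw [mul_add, add_mul, add_mul, add_mul, hesf, hfse, add_zero, zero_add,
      ihta_rank_one e Sg hdete, ihta_rank_one f Sg hdetf] at h1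
    exact h1
  have hf1 : f = 1 - e := by rw [← hef1]; abel
  have htr : Sg.trace = aq + dq := by
    have h1 : Sg.trace = ((e + f) * Sg).trace := by rw [hef1, one_mul]
    rw [h1, add_mul, Matrix.trace_add]
  have hcomm : Ph * Sg = Sg * Ph := by
    rw [hSg, mul_add, add_mul, Matrix.mul_smul, Matrix.mul_smul, Matrix.smul_mul, Matrix.smul_mul,
      hPe, heP, hPf, hfP]
  have hprod1 : aq * dq = 1 := by
    have h1 := ihta_mul_adj Sg
    rw [hdet, one_smul] at h1
    have h2 : Sg.trace • (1 : Matrix (Fin 2) (Fin 2) A) - Sg = dq • e + aq • f := by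
      rw [htr, ← hef1]
      conv_lhs => rw [hSg]
      rw [smul_add, add_smul, add_smul]
      abel
    rw [h2] at h1
    conv_lhs at h1 => rw [hSg]
    rw [ihta_diag_mul hee hff hef hfe, mul_comm dq aq, ← smul_add, hef1] at h1
    have h3 := congrArg (fun Z : Matrix (Fin 2) (Fin 2) A => Z 0 0) h1
    simpa using h3
  have heSg : e * Sg = aq • e := by
    conv_lhs => rw [hSg]
    rw [mul_add, Matrix.mul_smul, Matrix.mul_smul, hee, hef, smul_zero, add_zero]
  have hepow : ∀ k : ℕ, e * Sg ^ k = aq ^ k • e := by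
    intro k
    induction k with
    | zero => simp
    | succ k ih => rw [pow_succ, ← mul_assoc, ih, Matrix.smul_mul, heSg, smul_smul, pow_succ]
  have hSgq : Sg ^ q = Sg := by
    have h1 : Sg ^ q * Ph = Sg * Ph := by rw [← hrel, hcomm]
    have h2 := congrArg (fun Z => Z * Ph') h1
    rwa [mul_assoc, mul_assoc, hPh2, mul_one, mul_one] at h2
  have haqn : aq ^ n = 1 := by
    have h1 : aq ^ (n + 1) • e = aq • e := by rw [← hepow, ← hq', hSgq, heSg]
    have h2 := congrArg Matrix.trace h1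
    rw [Matrix.trace_smul, Matrix.trace_smul, htre, smul_eq_mul, smul_eq_mul, mul_one, mul_one]
      at h2
    have h3 : aq ^ n = aq ^ (n + 1) * dq := by rw [pow_succ, mul_assoc, hprod1, mul_one]
    rw [h3, h2, hprod1]
  have haq1 : aq - 1 ∈ maximalIdeal A := by
    have h1 : aq - 1 = (e * (Sg - 1)).trace := by
      rw [mul_sub, mul_one, Matrix.trace_sub, htre]
    rw [h1, Matrix.trace_fin_two, Matrix.mul_apply, Matrix.mul_apply, Fin.sum_univ_two,
      Fin.sum_univ_two]
    exact Ideal.add_mem _ (Ideal.add_mem _ (Ideal.mul_mem_left _ _ (hSg1 0 0))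
      (Ideal.mul_mem_left _ _ (hSg1 1 0))) (Ideal.add_mem _ (Ideal.mul_mem_left _ _ (hSg1 0 1))
      (Ideal.mul_mem_left _ _ (hSg1 1 1)))
  have haqpc : aq ^ (p ^ c) = 1 := by
    refine ihta_eq_one_of_pow_local hp hpA (ihta_pow_sub_one_mem _ haq1 _) hu ?_
    rw [← pow_mul, ← hn, haqn]
  exact ⟨aq, dq, e, hprod1, haqpc, haq1, hee, htre, hPe, heP, rfl, by rw [← hf1]; exact hSg, htr,
    hcomm⟩

/-- **Hensel**: the characteristic polynomial of `Ph` has roots `al, be` in `A` lifting residually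
distinct approximate roots `a₀, b₀` -/
theorem ihta_TW_hensel [IsLocalRing A] [IsAdicComplete (maximalIdeal A) A]
    (Ph : Matrix (Fin 2) (Fin 2) A) (a₀ b₀ : A)
    (hsum : a₀ + b₀ - Ph.trace ∈ maximalIdeal A) (hprod : a₀ * b₀ - Ph.det ∈ maximalIdeal A)
    (hunit : IsUnit (a₀ - b₀)) :
    ∃ al be : A, al + be = Ph.trace ∧ al * be = Ph.det ∧ IsUnit (al - be) ∧
      al - a₀ ∈ maximalIdeal A ∧ be - b₀ ∈ maximalIdeal A := by
  classical
  set F : Polynomial A := Polynomial.X ^ 2 - Polynomial.C Ph.trace * Polynomial.X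
    + Polynomial.C Ph.det with hF
  have hmonic : F.Monic := by
    rw [hF, sub_add]
    refine Polynomial.monic_X_pow_sub ?_
    refine lt_of_le_of_lt (Polynomial.degree_sub_le _ _) ?_
    refine max_lt ?_ (lt_of_le_of_lt Polynomial.degree_C_le (by norm_num))
    exact lt_of_le_of_lt (Polynomial.degree_C_mul_X_le _) (by norm_num)
  have hev : ∀ x : A, F.eval x = x ^ 2 - Ph.trace * x + Ph.det := by
    intro x
    simp [hF]
  have hder : ∀ x : A, F.derivative.eval x = 2 * x - Ph.trace := by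
    intro x
    simp [hF]
    ring
  have h1 : F.eval a₀ ∈ maximalIdeal A := by
    have : F.eval a₀ = (a₀ * b₀ - Ph.det) * (-1) + (a₀ + b₀ - Ph.trace) * a₀ := by
      rw [hev]; ring
    rw [this]
    exact Ideal.add_mem _ (Ideal.mul_mem_right _ _ hprod) (Ideal.mul_mem_right _ _ hsum)
  have h2 : IsUnit (F.derivative.eval a₀) := by
    have : F.derivative.eval a₀ = (a₀ - b₀) + (a₀ + b₀ - Ph.trace) := by rw [hder]; ring
    rw [this]
    exact ihta_isUnit_add hunit hsum
  obtain ⟨al, hroot, hal⟩ := HenselianRing.is_henselian (I := maximalIdeal A) F hmonic a₀ h1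
    (h2.map (Ideal.Quotient.mk (maximalIdeal A)))
  have hroot' : al ^ 2 - Ph.trace * al + Ph.det = 0 := by rw [← hev]; exact hroot
  refine ⟨al, Ph.trace - al, by ring, by linear_combination (-1 : A) * hroot', ?_, hal, ?_⟩
  · have : al - (Ph.trace - al) = (a₀ - b₀) + (2 * (al - a₀) + (a₀ + b₀ - Ph.trace)) := by ring
    rw [this]
    exact ihta_isUnit_add hunit (Ideal.add_mem _ (Ideal.mul_mem_left _ _ hal) hsum)
  · have : Ph.trace - al - b₀ = -(al - a₀) - (a₀ + b₀ - Ph.trace) := by ring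
    rw [this]
    exact Ideal.sub_mem _ (Ideal.neg_mem_iff _ |>.2 hal) hsum

end

end Fermat.Agent.Ihara
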