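/-
IHARA / [TAME-ALG] (helper5), part 8: **the package (F) in the vocabulary of `IhaHecke`.**

`A` a complete local `𝒪`-algebra of residue characteristic `p`, `r : G_ℚ → M₂(A)` a continuous
strict lift of `ρbar` (in the basis `b`), `ρbar` unramified at the prime `v ≠ p`, `P` a place over
`v`, `φ` a Frobenius element at `P`, `σ` an element of the inertia group of `P` with
`det (r σ) = 1`.

* `ihta_TC` (C-primes, `v = 1 + p ^ a * u`, `p ∤ u`, `0 < a`, `p` odd): if the points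
  `ψ i : A → D i` (domains) are jointly injective and `ψ i (tr (r σ)) ≠ 2` for all `i`, then
  `∏_{ζ ∈ μ} (tr (r σ) - (ζ + ζ⁻¹)) = 0` and `r φ * r σ = r σ * r φ` — the two `[TC]` fields;
* `ihta_TW_roots` : for a Taylor–Wiles prime (`IsTWPrime ρbar q`) there are `a₀, b₀ ∈ A` which are
  residually the two distinct roots of the characteristic polynomial of `r φ`;
* `ihta_AQ` (TW primes, `q = 1 + p ^ c * u`, `p ∤ u`, `0 < c`): the inertia scalar `aq` with
  `aq ^ (p ^ c) = 1`, `aq ≡ 1`, `tr (r σ) = aq + aq⁻¹`, `aq = tr (e * r σ)` for an idempotent `e` of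
  trace `1`, and `r σ = aq • e + aq⁻¹ • (1 - e)` — the field `[AQ]` with what (G), (H) need.
-/
import Mathlib
import Fermat.Agent.Lib.TW.Interface
import Fermat.Agent.Lib.Ihara.Ta.Rel
import Fermat.Agent.Lib.Ihara.Ta.CPrime
import Fermat.Agent.Lib.Ihara.Ta.TWPrime
import Fermat.Agent.Lib.Ihara.Ta.Mu

set_option autoImplicit false
set_option linter.unusedSectionVars false
set_option linter.style.haveILetI false

namespace Fermat.Agent.Ihara

open Fermat.Agent.S53Lib Fermat.Agent.TW IsLocalRing ValuationSubring Matrix Polynomial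

local notation "Qb" => AlgebraicClosure ℚ

section

variable {𝒪 : Type} [CommRing 𝒪] [IsLocalRing 𝒪]
  {A : Type} [CommRing A] [IsLocalRing A] [IsAdicComplete (maximalIdeal A) A]
  [Algebra 𝒪 A] [IsLocalHom (algebraMap 𝒪 A)]

/-- **the two `[TC]` fields of `IhaHecke` at a C-prime `v`** -/
theorem ihta_TC {p v : ℕ} (hp : p.Prime) (hp2 : p ≠ 2) (hv : v.Prime) (hpv : p ≠ v)
    (hpA : (p : A) ∈ maximalIdeal A)
    (ρbar : ResidualGaloisRep (ResidueField 𝒪))
    (b : Module.Basis (Fin 2) (ResidueField 𝒪) ρbar.V) (hunr : ρbar.IsUnramifiedAt v)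
    (P : ValuationSubring Qb) (hP : P.LiesOverPrime v)
    (r : GQ →* Matrix (Fin 2) (Fin 2) A) (hcts : MatCts A r)
    (hr : IsStrictLift (𝒪 := 𝒪) (resMat ρbar b) r)
    {φ σ : GQ} (hφ : P.IsFrobeniusAt φ v) (hσ : σ ∈ P.inertiaSubgroupIn ℚ)
    (hdet : (r σ).det = 1)
    (a u : ℕ) (hvau : v = 1 + p ^ a * u) (hu : ¬ p ∣ u) (ha : 0 < a)
    (μ : Finset 𝒪ˣ)
    (hμ : (X ^ (p ^ a) - 1 : 𝒪[X]) = (X - 1) * ∏ ζ ∈ μ, (X - C (ζ : 𝒪)))
    {ι : Type*} {D : ι → Type*} [∀ i, CommRing (D i)] [∀ i, IsDomain (D i)]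
    (ψ : ∀ i, A →+* D i) (hψ : ∀ x : A, (∀ i, ψ i x = 0) → x = 0)
    (hne : ∀ i, ψ i (r σ).trace ≠ 2) :
    ∏ ζ ∈ μ, ((r σ).trace - algebraMap 𝒪 A ((ζ : 𝒪) + ((ζ⁻¹ : 𝒪ˣ) : 𝒪))) = 0 ∧
      r φ * r σ = r σ * r φ := by
  obtain ⟨h1, h2, h3⟩ := ihta_rel_strictLift hp hv hpv hpA ρbar b hunr P hP r hcts hr hφ hσ
  exact ihta_C_main ψ hψ hp hp2 hpA (r σ) (r φ) (r φ⁻¹) h2 h1 hdet v a u hvau hu ha h3 μ hμ hne

/-- **approximate roots at a Taylor–Wiles prime** -/
theorem ihta_TW_roots {q : ℕ} (ρbar : ResidualGaloisRep (ResidueField 𝒪))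
    (b : Module.Basis (Fin 2) (ResidueField 𝒪) ρbar.V) (hTW : IsTWPrime ρbar q)
    (P : ValuationSubring Qb) (hP : P.LiesOverPrime q)
    (r : GQ →* Matrix (Fin 2) (Fin 2) A) (hr : IsStrictLift (𝒪 := 𝒪) (resMat ρbar b) r)
    {φ : GQ} (hφ : P.IsFrobeniusAt φ q) :
    ∃ a₀ b₀ : A, a₀ + b₀ - (r φ).trace ∈ maximalIdeal A ∧
      a₀ * b₀ - (r φ).det ∈ maximalIdeal A ∧ IsUnit (a₀ - b₀) := by
  obtain ⟨α, β, hαβ, hchar⟩ := hTW P hP φ hφ
  set M := LinearMap.toMatrix b b (ρbar.ρ φ) with hM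
  have h1 : M.charpoly = (X - C α) * (X - C β) := by
    rw [hM, LinearMap.charpoly_toMatrix, hchar]
  rw [Matrix.charpoly_fin_two] at h1
  have htr : M.trace = α + β := by
    have := congrArg (fun f : (ResidueField 𝒪)[X] => f.coeff 1) h1
    simp only [coeff_add, coeff_sub, coeff_X_pow, coeff_C_mul, coeff_X_one, coeff_C] at this
    have h2 : ((X - C α) * (X - C β) : (ResidueField 𝒪)[X]) =
        X ^ 2 - C (α + β) * X + C (α * β) := by
      rw [map_add, map_mul]; ring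
    rw [h2] at this
    simp only [coeff_add, coeff_sub, coeff_X_pow, coeff_C_mul, coeff_X_one, coeff_C] at this
    have h3 : -M.trace = -β + -α := by simpa using this
    linear_combination (-1 : ResidueField 𝒪) * h3
  have hdt : M.det = α * β := by
    have := congrArg (fun f : (ResidueField 𝒪)[X] => f.coeff 0) h1
    have h2 : ((X - C α) * (X - C β) : (ResidueField 𝒪)[X]) =
        X ^ 2 - C (α + β) * X + C (α * β) := by
      rw [map_add, map_mul]; ring
    rw [h2] at this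
    simpa using this
  set κ : ResidueField 𝒪 →+* ResidueField A := ResidueField.map (algebraMap 𝒪 A) with hκ
  have hrφ : (r φ).map (residue A) = M.map κ := hr φ
  obtain ⟨a₀, ha₀⟩ := residue_surjective (R := A) (κ α)
  obtain ⟨b₀, hb₀⟩ := residue_surjective (R := A) (κ β)
  have htrA : residue A (r φ).trace = κ α + κ β := by
    have h3 : residue A (r φ).trace = ((r φ).map (residue A)).trace := by
      rw [Matrix.trace_fin_two, Matrix.trace_fin_two, map_add]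
      rfl
    rw [h3, hrφ]
    have h4 : (M.map κ).trace = κ M.trace := by
      rw [Matrix.trace_fin_two, Matrix.trace_fin_two, map_add]
      rfl
    rw [h4, htr, map_add]
  have hdetA : residue A (r φ).det = κ α * κ β := by
    have h3 : residue A (r φ).det = ((r φ).map (residue A)).det := by
      rw [RingHom.map_det]
      rfl
    rw [h3, hrφ]
    have h4 : (M.map κ).det = κ M.det := by
      rw [RingHom.map_det]
      rfl
    rw [h4, hdt, map_mul]
  refine ⟨a₀, b₀, ?_, ?_, ?_⟩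
  · rw [← residue_eq_zero_iff, map_sub, map_add, ha₀, hb₀, htrA, sub_self]
  · rw [← residue_eq_zero_iff, map_sub, map_mul, ha₀, hb₀, hdetA, sub_self]
  · rw [← IsLocalRing.notMem_maximalIdeal, ← residue_eq_zero_iff, map_sub, ha₀, hb₀, sub_eq_zero]
    intro h
    exact hαβ (κ.injective h)

/-- **the field `[AQ]` of `IhaHecke` at a Taylor–Wiles prime `q`**, with the idempotent -/
theorem ihta_AQ {p q : ℕ} (hp : p.Prime) (hq : q.Prime) (hpq : p ≠ q)
    (hpA : (p : A) ∈ maximalIdeal A)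
    (ρbar : ResidualGaloisRep (ResidueField 𝒪))
    (b : Module.Basis (Fin 2) (ResidueField 𝒪) ρbar.V) (hunr : ρbar.IsUnramifiedAt q)
    (hTW : IsTWPrime ρbar q)
    (P : ValuationSubring Qb) (hP : P.LiesOverPrime q)
    (r : GQ →* Matrix (Fin 2) (Fin 2) A) (hcts : MatCts A r)
    (hr : IsStrictLift (𝒪 := 𝒪) (resMat ρbar b) r)
    {φ σ : GQ} (hφ : P.IsFrobeniusAt φ q) (hσ : σ ∈ P.inertiaSubgroupIn ℚ)
    (hdet : (r σ).det = 1)
    (c u : ℕ) (hqcu : q = 1 + p ^ c * u) (hu : ¬ p ∣ u) (hc : 0 < c) :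
    ∃ (aq aq' : A) (e : Matrix (Fin 2) (Fin 2) A),
      aq * aq' = 1 ∧ aq ^ (p ^ c) = 1 ∧ aq - 1 ∈ maximalIdeal A ∧
      e * e = e ∧ e.trace = 1 ∧ r φ * e = e * r φ ∧
      aq = (e * r σ).trace ∧
      r σ = aq • e + aq' • (1 - e) ∧ (r σ).trace = aq + aq' ∧ r φ * r σ = r σ * r φ := by
  obtain ⟨h1, h2, h3⟩ := ihta_rel_strictLift hp hq hpq hpA ρbar b hunr P hP r hcts hr hφ hσ
  obtain ⟨a₀, b₀, h4, h5, h6⟩ := ihta_TW_roots ρbar b hTW P hP r hr hφ
  obtain ⟨al, be, h7, h8, h9, -, -⟩ := ihta_TW_hensel (r φ) a₀ b₀ h4 h5 h6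
  obtain ⟨aq, aq', e, k1, k2, k3, k4, k5, k6, k7, k8, k9, k10, k11⟩ :=
    ihta_TW_main hp hpA (r σ) (r φ) (r φ⁻¹) h2 h1 hdet q c u hqcu hu hc h3 al be h7 h8 h9
  exact ⟨aq, aq', e, k1, k2, k3, k4, k5, by rw [k6, k7], k8, k9, k10, k11⟩

end

end Fermat.Agent.Ihara
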